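import Fermat.Agent.Engine.LevelRing
import Fermat.Agent.Engine.Evaluation

/-!
# A prescribed global coordinate of a framed ring

If the framed pairs killing two elements `e`, `z` of the ring are at most `g + 4`, the framed ring
is generated by the local coordinates, `g + 1` global variables, the last one mapping to `e`, and
`z` as a further generator.
-/

set_option autoImplicit false

noncomputable section

open IsLocalRing MvPowerSeries Fermat.Agent.DefRing Fermat.Agent.Deform

namespace Fermat.Agent.Engine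

/-- A power series with coefficients in an ideal with two generators. -/
theorem exists_eq_C_mul_add {R σ : Type} [CommRing R] {e z : R} {f : MvPowerSeries σ R}
    (h : ∀ n, coeff n f ∈ Ideal.span {e, z}) : ∃ h₁ h₂, f = C e * h₁ + C z * h₂ := by
  choose c d hcd using fun n => Ideal.mem_span_pair.mp (h n)
  let h₁ : MvPowerSeries σ R := fun n => c n
  let h₂ : MvPowerSeries σ R := fun n => d n
  have e₁ : ∀ n, coeff n h₁ = c n := fun n => rfl
  have e₂ : ∀ n, coeff n h₂ = d n := fun n => rfl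
  refine ⟨h₁, h₂, MvPowerSeries.ext fun n => ?_⟩
  rw [map_add, coeff_C_mul, coeff_C_mul, e₁, e₂, ← hcd n]
  ring

/-- Generic frames commute with change of ring. -/
theorem map_genericFrame {T : Type} (r₀ : T) {R R' : Type} [CommRing R] [CommRing R']
    (f : R →+* R') (r : T) :
    (genericFrame r₀ R r).map (MvPowerSeries.map f) = genericFrame r₀ R' r := by
  refine Matrix.ext fun a b => ?_
  simp only [genericFrame, frameVarMat, Matrix.map_apply, Matrix.add_apply, Matrix.of_apply]
  rw [map_add]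
  refine congrArg₂ (· + ·) ?_ ?_
  · by_cases hab : a = b
    · rw [hab, Matrix.one_apply_eq, Matrix.one_apply_eq, map_one]
    · rw [Matrix.one_apply_ne hab, Matrix.one_apply_ne hab, map_zero]
  · by_cases h : (r, a, b) = (r₀, 0, 0)
    · simp only [dif_pos h, map_zero]
    · simp only [dif_neg h, MvPowerSeries.map_X]

/-- Framed representations commute with change of ring. -/
theorem framedRep_map {T : Type} (r₀ : T) {R R' : Type} [CommRing R] [CommRing R']
    (f : R →+* R') (N : MRep R) (r : T) (σ : GQ) :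
    (framedRep r₀ R N r σ).map (MvPowerSeries.map f) =
      framedRep r₀ R' (mapRep f N) r σ := by
  have hinv : ((isUnit_genericFrame r₀ R r).unit⁻¹ : (Matrix _ _ _)ˣ).1.map (MvPowerSeries.map f) =
      ((isUnit_genericFrame r₀ R' r).unit⁻¹ : (Matrix _ _ _)ˣ).1 := by
    refine left_inv_eq_right_inv ?_ (isUnit_genericFrame r₀ R' r).mul_val_inv
    rw [← map_genericFrame r₀ f r, ← Matrix.map_mul, IsUnit.val_inv_mul,
      Matrix.map_one _ (map_zero _) (map_one _)]
  have hC : ((N σ).map C).map (MvPowerSeries.map f) =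
      ((mapRep f N σ).map C : Matrix (Fin 2) (Fin 2) (MvPowerSeries (FrameVar T r₀) R')) := by
    ext a b : 2
    simp [mapRep_apply, map_C]
  show (_ * _ * _ : Matrix (Fin 2) (Fin 2) (MvPowerSeries (FrameVar T r₀) R)).map _ = _
  rw [Matrix.map_mul, Matrix.map_mul, hinv, hC, map_genericFrame]
  rfl

namespace LevelData

variable {O : Type} [CommRing O] [IsLocalRing O] {L : LevelData O}

/-- **Local coordinates with one prescribed global coordinate.** -/
theorem RepRing.exists_surjective_locRing_coord [Finite (ResidueField O)] [IsNoetherianRing O]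
    [IsAdicComplete (maximalIdeal O) O] (P : L.RepRing) {p : ℕ}
    (h2 : (2 : ResidueField O) ≠ 0) (h : L.IsResidual)
    (small : CondAtP L.D.rbar p) (e z : P.R) (he : e ∈ maximalIdeal P.R)
    (hz : z ∈ maximalIdeal P.R)
    (hfirst : letI := dualAlgebra (𝒪 := O); ∀ φ : P.R →ₐ[O] DualNumber (ResidueField O),
      φ e = 0 → φ z = 0 →
      (∀ σ, (mapRep (φ : P.R →+* DualNumber (ResidueField O)) P.rep σ).map TrivSqZeroExt.fst =
        L.D.rbar σ) →
      (∀ σ, (cocOf L.D.rbar
        (mapRep (φ : P.R →+* DualNumber (ResidueField O)) P.rep) σ).trace = 0) →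
      (fun σ : small.place.decompositionSubgroup ℚ =>
        cocOf L.D.rbar (mapRep (φ : P.R →+* DualNumber (ResidueField O)) P.rep) (σ : GQ)) ∈
          small.cond)
    (T : Finset ℕ) (C₀ : LocalChoices T) (r₀ : T) {g : ℕ}
    (hbound : ∀ W : Submodule (ResidueField O) (TangentPair (ResidueField O) T),
      (∀ x ∈ W, IsTangentPair L.D.rbar L.Smin L.Sigma T C₀ small x) →
      FiniteDimensional (ResidueField O) W ∧ Module.finrank (ResidueField O) W ≤ g + 4)
    (htame : ∀ r, L.D.rbar (C₀.tame r) = 1)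
    (Φ₀ : T → Matrix (Fin 2) (Fin 2) O)
    (hΦ₀ : ∀ r, (Φ₀ r).map (residue O) = L.D.rbar (C₀.frob r)) :
    ∃ θ : LocRing O T (g + 1) →ₐ[O] P.Framed r₀,
      IsLocalHom (θ : LocRing O T (g + 1) →+* P.Framed r₀) ∧
      (∃ Φ : MvPowerSeries (Fin 1) (LocRing O T (g + 1)) →+* P.Framed r₀,
        Function.Surjective Φ ∧ (∀ x, Φ (C x) = θ x) ∧ ∀ i, Φ (X i) = C z) ∧
      θ (X (Sum.inr (Sum.inr (Fin.last g)))) = C e ∧
      ∀ r, (locFrob (g := g + 1) Φ₀ r).map θ = framedRep r₀ P.R P.rep r (C₀.frob r) ∧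
        (locMono (g := g + 1) (O := O) r).map θ =
          framedRep r₀ P.R P.rep r (C₀.tame r) - 1 := by
  classical
  let := dualAlgebra (𝒪 := O)
  set I : Ideal P.R := Ideal.span {e, z}
  have hI : I ≤ maximalIdeal P.R := Ideal.span_le.mpr (by
    rintro _ (rfl | rfl)
    exacts [he, hz])
  have : Nontrivial (P.R ⧸ I) := Ideal.Quotient.nontrivial_iff.mpr fun htop =>
    (maximalIdeal.isMaximal P.R).ne_top (top_le_iff.mp (htop ▸ hI))
  have : IsLocalRing (P.R ⧸ I) :=
    IsLocalRing.of_surjective' (Ideal.Quotient.mk I) Ideal.Quotient.mk_surjective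
  have hmkl : IsLocalHom (Ideal.Quotient.mk I) :=
    isLocalHom_of_surjective' _ Ideal.Quotient.mk_surjective
  have : IsAdicComplete (maximalIdeal (P.R ⧸ I)) (P.R ⧸ I) := by
    have h := isAdicComplete_of_finite (C := P.R ⧸ I) P.R
    rwa [show (maximalIdeal P.R).map (algebraMap P.R (P.R ⧸ I)) = maximalIdeal (P.R ⧸ I) from ?_] at h
    refine le_antisymm (Ideal.map_le_iff_le_comap.2 fun x hx => map_nonunit (Ideal.Quotient.mk I) x hx)
      fun y hy => ?_
    obtain ⟨x, rfl⟩ := Ideal.Quotient.mk_surjective y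
    exact Ideal.mem_map_of_mem _ (fun hu => hy (hu.map _))
  have hlO : IsLocalHom (algebraMap O P.R) := P.instIsLocalHom
  let mk : P.R →ₐ[O] P.R ⧸ I := Ideal.Quotient.mkₐ O I
  have hlR : IsLocalHom (algebraMap O (P.R ⧸ I)) :=
    ⟨fun o ho => hlO.map_nonunit o (hmkl.map_nonunit _ ho)⟩
  have hsR : Function.Surjective (residue (P.R ⧸ I) ∘ algebraMap O (P.R ⧸ I)) := fun z => by
    obtain ⟨y, rfl⟩ := IsLocalRing.residue_surjective z
    obtain ⟨x, rfl⟩ := Ideal.Quotient.mk_surjective y
    obtain ⟨o, ho⟩ := exists_algebraMap_add_mem P.residue_surjective x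
    refine ⟨o, (RingHom.sub_mem_ker_iff _).mp ?_⟩
    rw [IsLocalRing.ker_residue]
    have h1 := map_nonunit (Ideal.Quotient.mk I) _ ho
    rw [map_sub] at h1
    show algebraMap O (P.R ⧸ I) o - Ideal.Quotient.mk I x ∈ _
    rw [← neg_sub]
    exact neg_mem h1
  set rep' := mapRep (mk : P.R →+* P.R ⧸ I) P.rep with hrep'
  have heqs : L.Equations rep' := by
    refine ⟨fun σ => ?_, fun q hq hqS A hA σ hσ => ?_, fun q hq A hA σ hσ => ?_⟩
    · rw [hrep', mapRep_apply]
      show (mk.mapMatrix (P.rep σ)).det = _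
      rw [← AlgHom.map_det, P.isLift.eqs.det, AlgHom.commutes]
    · rw [hrep', mapRep_apply, P.isLift.eqs.unram q hq hqS A hA σ hσ]
      exact Matrix.map_one _ (map_zero _) (map_one _)
    · have h1 := congrArg (fun M => Matrix.map M (mk : P.R →+* P.R ⧸ I))
        (P.isLift.eqs.unipotent q hq A hA σ hσ)
      simpa [hrep', mapRep_apply, Matrix.map_mul, Matrix.map_sub _ (map_sub _),
        Matrix.map_one _ (map_zero _) (map_one _)] using h1
  have htop : ∀ x : P.R ⧸ I, ∃ s ∈ Algebra.adjoin O (entries rep'),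
      x - s ∈ maximalIdeal (P.R ⧸ I) ^ 2 := fun y => by
    obtain ⟨x, rfl⟩ := Ideal.Quotient.mk_surjective y
    obtain ⟨s, hs, hxs⟩ := P.topGen x 2
    refine ⟨mk s, ?_, ?_⟩
    · have h1 : mk s ∈ (Algebra.adjoin O (entries P.rep)).map mk := ⟨s, hs, rfl⟩
      rw [AlgHom.map_adjoin] at h1
      refine Algebra.adjoin_mono ?_ h1
      rintro _ ⟨_, ⟨i, rfl⟩, rfl⟩
      exact ⟨i, rfl⟩
    · show Ideal.Quotient.mk I x - Ideal.Quotient.mk I s ∈ _
      rw [← map_sub]
      exact mem_pow_of_algHom (Ideal.Quotient.mk I) hmkl hxs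
  obtain ⟨θ', hθ'l, hθ's, hθ'⟩ := exists_surjective_locRing_lift (L := L) hlR hsR rep'
    (P.isLift.normal.map mk) (P.isLift.reduces.map mk hmkl) (P.isLift.cont.map _ hmkl) heqs htop
    h2 h small (fun φ hfst htr => hfirst (φ.comp mk)
      (by
        show φ (Ideal.Quotient.mk I e) = 0
        rw [Ideal.Quotient.eq_zero_iff_mem.mpr (Ideal.subset_span (Set.mem_insert _ _)), map_zero])
      (by
        show φ (Ideal.Quotient.mk I z) = 0
        rw [Ideal.Quotient.eq_zero_iff_mem.mpr
          (Ideal.subset_span (show z ∈ ({e, z} : Set P.R) from Or.inr rfl)), map_zero])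
      hfst htr) T C₀ r₀ hbound htame Φ₀ hΦ₀
  -- lifting the coordinates
  have : IsAdicComplete (maximalIdeal (P.Framed r₀)) (P.Framed r₀) := P.isAdicComplete_framed r₀
  have hlA : IsLocalHom (algebraMap O (P.Framed r₀)) := P.isLocalHom_framed r₀
  let π : P.Framed r₀ →+* MvPowerSeries (FrameVar T r₀) (P.R ⧸ I) :=
    MvPowerSeries.map (Ideal.Quotient.mk I)
  have hπC : ∀ o : O, π (algebraMap O (P.Framed r₀) o) =
      algebraMap O (MvPowerSeries (FrameVar T r₀) (P.R ⧸ I)) o := fun o => by
    simp only [π, MvPowerSeries.algebraMap_apply, map_C]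
    rfl
  have hπs : Function.Surjective π := fun f => by
    choose c hc using fun n => Ideal.Quotient.mk_surjective (coeff n f)
    let c' : MvPowerSeries (FrameVar T r₀) P.R := fun n => c n
    exact ⟨c', MvPowerSeries.ext fun n => (coeff_map _ n c').trans (hc n)⟩
  have hπker : ∀ f, π f = 0 → ∃ h₁ h₂, f = C e * h₁ + C z * h₂ := fun f hf =>
    exists_eq_C_mul_add fun n => by
    rw [← Ideal.Quotient.eq_zero_iff_mem, ← coeff_map]
    exact congrArg (coeff n) hf
  have hπm : ∀ f, π f ∈ maximalIdeal _ → f ∈ maximalIdeal (P.Framed r₀) :=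
    fun f hf hu => hf (hu.map π)
  choose lift hlift using fun l : Fin g => hπs (θ' (X (Sum.inr (Sum.inr l))))
  let x : LocVar T (g + 1) → P.Framed r₀ := Sum.elim
    (fun v => framedRep r₀ P.R P.rep v.1 (C₀.frob v.1) v.2.1 v.2.2 -
      algebraMap O (P.Framed r₀) (Φ₀ v.1 v.2.1 v.2.2))
    (Sum.elim (fun v => (framedRep r₀ P.R P.rep v.1 (C₀.tame v.1) - 1) v.2.1 v.2.2)
      (Fin.lastCases (C e) lift))
  let emb : LocVar T g → LocVar T (g + 1) := Sum.map id (Sum.map id Fin.castSucc)
  have hθ'C : ∀ o : O, θ' (C o) = algebraMap O (MvPowerSeries (FrameVar T r₀) (P.R ⧸ I)) o :=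
    fun o => by
      have := θ'.commutes o
      rwa [MvPowerSeries.algebraMap_apply, Algebra.algebraMap_self, RingHom.id_apply] at this
  have hπx : ∀ v, π (x (emb v)) = θ' (X v) := by
    rintro (⟨r, a, b⟩ | ⟨r, a, b⟩ | l)
    · have h1 := congrFun (congrFun (hθ' r).1 a) b
      simp only [locFrob, Matrix.map_apply, Matrix.of_apply, map_add, hθ'C] at h1
      show π (framedRep r₀ P.R P.rep r (C₀.frob r) a b - algebraMap O _ (Φ₀ r a b)) = _
      rw [map_sub, hπC, ← Matrix.map_apply (M := framedRep r₀ P.R P.rep r (C₀.frob r)) (f := π),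
        framedRep_map, sub_eq_iff_eq_add']
      exact h1.symm
    · have h1 := congrFun (congrFun (hθ' r).2 a) b
      simp only [locMono, Matrix.map_apply, Matrix.of_apply] at h1
      show π ((framedRep r₀ P.R P.rep r (C₀.tame r) - 1) a b) = _
      rw [Matrix.sub_apply, map_sub, ← Matrix.map_apply (M := framedRep r₀ P.R P.rep r (C₀.tame r)) (f := π),
        framedRep_map]
      refine Eq.trans ?_ h1.symm
      rw [Matrix.sub_apply]
      congr 1
      by_cases hab : a = b
      · rw [hab, Matrix.one_apply_eq, Matrix.one_apply_eq, map_one]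
      · rw [Matrix.one_apply_ne hab, Matrix.one_apply_ne hab, map_zero]
    · show π (Fin.lastCases (C e) lift l.castSucc) = _
      rw [Fin.lastCases_castSucc]
      exact hlift l
  have hX' : ∀ v : LocVar T g, θ' (X v) ∈ maximalIdeal _ := fun v hu =>
    (X_mem_maximalIdeal v) (hθ'l.map_nonunit _ hu)
  have hx : ∀ v, x v ∈ maximalIdeal (P.Framed r₀) := by
    rintro (v | v | l)
    · exact hπm _ ((hπx (Sum.inl v)).symm ▸ hX' _)
    · exact hπm _ ((hπx (Sum.inr (Sum.inl v))).symm ▸ hX' _)
    · rcases l.eq_castSucc_or_eq_last with ⟨l, rfl⟩ | rfl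
      · exact hπm _ ((hπx (Sum.inr (Sum.inr l))).symm ▸ hX' _)
      · show Fin.lastCases (motive := fun _ => P.Framed r₀) (C e) lift (Fin.last g) ∈ _
        rw [Fin.lastCases_last, mem_maximalIdeal_iff_constantCoeff, constantCoeff_C]
        exact he
  obtain ⟨θ, hθl, hθX⟩ := exists_algHom_powerSeries (B := O) x hx
  have hθC : ∀ o : O, θ (C o) = algebraMap O (P.Framed r₀) o := fun o => by
    have := θ.commutes o
    rwa [MvPowerSeries.algebraMap_apply, Algebra.algebraMap_self, RingHom.id_apply] at this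
  have : IsAdicComplete (maximalIdeal (LocRing O T (g + 1))) (LocRing O T (g + 1)) :=
    isAdicComplete_mvPowerSeries
  have hlO' : IsLocalHom (algebraMap O (LocRing O T (g + 1))) := ⟨fun o ho => by
    have := isUnit_iff_constantCoeff.mp ho
    rwa [MvPowerSeries.algebraMap_apply, constantCoeff_C, Algebra.algebraMap_self,
      RingHom.id_apply] at this⟩
  obtain ⟨ι, hιl, hιX⟩ := exists_algHom_powerSeries (B := O)
    (fun v : LocVar T g => (X (emb v) : LocRing O T (g + 1))) fun v => X_mem_maximalIdeal _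
  have hfac : (π.comp (θ : LocRing O T (g + 1) →+* P.Framed r₀)).comp
      (ι : LocRing O T g →+* LocRing O T (g + 1)) = θ' := by
    have : IsAdicComplete (maximalIdeal (MvPowerSeries (FrameVar T r₀) (P.R ⧸ I)))
        (MvPowerSeries (FrameVar T r₀) (P.R ⧸ I)) := isAdicComplete_mvPowerSeries
    refine eval_unique (J := maximalIdeal (MvPowerSeries (FrameVar T r₀) (P.R ⧸ I)))
      (fun v => ?_) (fun o => ?_) fun v => ?_
    · show π (θ (ι (X v))) ∈ _
      rw [hιX, hθX, hπx]
      exact hX' v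
    · show π (θ (ι (C o))) = θ' (C o)
      rw [show ι (C o) = C o by
        have := ι.commutes o
        rwa [MvPowerSeries.algebraMap_apply, MvPowerSeries.algebraMap_apply,
          Algebra.algebraMap_self, RingHom.id_apply] at this, hθC, hπC, hθ'C]
    · show π (θ (ι (X v))) = θ' (X v)
      rw [hιX, hθX, hπx]
  have hlast : θ (X (Sum.inr (Sum.inr (Fin.last g)))) = C e := by
    rw [hθX]
    show Fin.lastCases (C e) lift (Fin.last g) = C e
    rw [Fin.lastCases_last]
  have hCz : (C z : P.Framed r₀) ∈ maximalIdeal (P.Framed r₀) := by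
    rw [mem_maximalIdeal_iff_constantCoeff, constantCoeff_C]
    exact hz
  obtain ⟨Φ, hΦC, hΦX⟩ := exists_eval (J := maximalIdeal (P.Framed r₀)) (σ := Fin 1)
    (θ : LocRing O T (g + 1) →+* P.Framed r₀) (fun _ => C z) fun _ => hCz
  have hΦm : ∀ y ∈ maximalIdeal (MvPowerSeries (Fin 1) (LocRing O T (g + 1))),
      Φ y ∈ maximalIdeal (P.Framed r₀) := fun y hy => by
    have h1 := Ideal.mem_map_of_mem Φ (maximalIdeal_mvPowerSeries_le hy)
    rw [Ideal.map_sup, Ideal.map_map, Ideal.map_span] at h1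
    refine (?_ : _ ≤ maximalIdeal (P.Framed r₀)) h1
    refine sup_le (Ideal.map_le_iff_le_comap.mpr fun a ha => ?_) (Ideal.span_le.mpr ?_)
    · show Φ (C a) ∈ maximalIdeal (P.Framed r₀)
      rw [hΦC]
      exact fun hu => ha (hθl.map_nonunit _ hu)
    · rintro _ ⟨_, ⟨i, rfl⟩, rfl⟩
      rw [SetLike.mem_coe, hΦX]
      exact hCz
  have hΦl : IsLocalHom Φ := ⟨fun y hy => by_contra fun hn => hΦm y hn hy⟩
  have : IsAdicComplete (maximalIdeal (MvPowerSeries (Fin 1) (LocRing O T (g + 1))))
      (MvPowerSeries (Fin 1) (LocRing O T (g + 1))) := isAdicComplete_mvPowerSeries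
  refine ⟨θ, hθl, ⟨Φ, surjective_of_cotangent Φ (fun y => ?_)
    (fun f hf => Submodule.mem_sup_left ?_), hΦC, hΦX⟩, hlast, fun r => ⟨?_, ?_⟩⟩
  · obtain ⟨o, ho⟩ := P.residue_surjective_framed r₀ y
    exact ⟨C (C o), by simpa [hΦC, hθC] using ho⟩
  · obtain ⟨t, ht⟩ := hθ's (π f)
    have htm : t ∈ maximalIdeal (LocRing O T g) := fun hu => by
      have h1 : IsUnit (π f) := ht ▸ hu.map θ'
      refine hf ?_
      rw [MvPowerSeries.isUnit_iff_constantCoeff] at h1 ⊢
      exact hmkl.map_nonunit _ (by simpa [π] using h1)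
    obtain ⟨h₁, h₂, hh⟩ := hπker (f - θ (ι t)) (by
      rw [map_sub, show π (θ (ι t)) = θ' t from RingHom.congr_fun hfac t, ht, sub_self])
    have hmem : ∀ y ∈ maximalIdeal (LocRing O T (g + 1)),
        θ y ∈ (maximalIdeal (MvPowerSeries (Fin 1) (LocRing O T (g + 1)))).map Φ := fun y hy => by
      rw [← RingHom.coe_coe θ, ← hΦC]
      exact Ideal.mem_map_of_mem _ (by
        rwa [mem_maximalIdeal_iff_constantCoeff, constantCoeff_C])
    rw [← sub_add_cancel f (θ (ι t)), hh]
    refine add_mem (add_mem (Ideal.mul_mem_right _ _ ?_) (Ideal.mul_mem_right _ _ ?_))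
      (hmem _ fun hu => htm (hιl.map_nonunit _ hu))
    · rw [← hlast]
      exact hmem _ (X_mem_maximalIdeal _)
    · rw [← hΦX 0]
      exact Ideal.mem_map_of_mem _ (X_mem_maximalIdeal _)
  · ext a b : 2
    simp only [locFrob, Matrix.map_apply, Matrix.of_apply, map_add, hθC, hθX]
    simp [x]
  · ext a b : 2
    simp only [locMono, Matrix.map_apply, Matrix.of_apply, hθX]
    simp [x]

end LevelData

end Fermat.Agent.Engine
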