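import Fermat.Agent.Engine.TW.Main

/-!
# Taylor–Wiles systems for a condition at `p` with no excess

When the cocycles of the condition at `p` have dimension at most three, the primes killing the
dual Selmer group bound the framed pairs by one less than in the general case: one global
coordinate is then free to be prescribed.
-/

set_option autoImplicit false

noncomputable section

set_option maxSynthPendingDepth 5

namespace Fermat.Agent.Engine.TW

open Fermat.Agent.DefRing Fermat.Agent.Deform Fermat.Agent.GalCoh Fermat.Agent.GalCoh.Descent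
  ExtCitation Module
open scoped Pointwise

local notation "Ω" => AlgebraicClosure ℚ
local notation "Γ" => (AlgebraicClosure ℚ ≃ₐ[ℚ] AlgebraicClosure ℚ)

variable {k : Type} [Field k] {p : ℕ} [Fact p.Prime] [Algebra (ZMod p) k] [CharP k p]
  [FiniteDimensional (ZMod p) k] {ρ : MRep k} {χ : GQ → k} {Smin T Q : Finset ℕ}
  {C : LocalChoices T} {atP : CondAtP ρ p}

/-- The excess of the condition over the invariants, with none at `p`. -/
def upperTermSmall (p : ℕ) [Fact p.Prime] (k : Type) [Field k] [Algebra (ZMod p) k] (Q : Finset ℕ)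
    (n : ℕ) : ℕ :=
  if n ∈ Q then finrank (ZMod p) k else 0

variable (H : TWHyp p ρ χ Smin T) (hC : C.Valid p) (h3 : finrank k atP.cond ≤ 3)
  (hQ : ∀ q ∈ Q, q.Prime ∧ q ∉ Smin ∪ T ∧ q ≠ p ∧ ∃ m, IsTWPrime p (m + 1) ρ q)

omit [Algebra (ZMod p) k] [CharP k p] [FiniteDimensional (ZMod p) k] [Fact p.Prime] in
include h3 in
/-- The space at `p` has dimension at most three. -/
theorem finrank_pSpace_le_three : finrank k (pSpace atP) ≤ 3 := by
  have := atP.bound.1
  let e : pSpace atP →ₗ[k] atP.cond :=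
    (((traceZero k).subtype.compLeft _).comp (pSpace atP).subtype).codRestrict atP.cond fun x => x.2
  have he : Function.Injective e := fun x y h =>
    Subtype.ext (funext fun σ => Subtype.ext (congrFun (congrArg Subtype.val h) σ))
  exact (LinearMap.finrank_le_finrank_of_injective he).trans h3

include H hC hQ h3 in
/-- The local bound, with no excess at `p`. -/
theorem condAt_bound_small (u : Nat.Primes) (hu : (u : ℕ) ∈ sigmaSet p Smin T Q) :
    finrank (ZMod p) (condAt atP Smin T (Sum.inr u)) + lowerTerm p ρ C (u : ℕ) ≤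
      finrank (ZMod p) (H0 ((adP p ρ).comp (placeLoc (Sum.inr u)))) +
        upperTermSmall p k Q (u : ℕ) := by
  by_cases hup : (u : ℕ) = p
  · rw [condAt_p hup]
    obtain ⟨hB, hf, -⟩ := pSpace_bound atP
    obtain ⟨-, h⟩ := finrank_condOf_le (p := p) u _ atP.place (placeConj_smul u _) H.fin hB hf
      (finrank_pSpace_le_three h3)
    have hlow : lowerTerm p ρ C (u : ℕ) = 0 := dif_neg (hup ▸ H.notMem.2)
    rw [hlow]
    omega
  · have h := (condAt_bound (atP := atP) H hC hQ u hu).2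
    have e : upperTermSmall p k Q (u : ℕ) = upperTerm p k Q (u : ℕ) := by
      simp [upperTermSmall, upperTerm, hup]
    rw [e]
    exact h

include H hC hQ h3 in
/-- The sum over all places. -/
theorem sum_condFamily_small :
    (∑ u : extArithIndex (placeSet p Smin T Q),
        finrank (ZMod p) (condFamily atP Smin T _ u)) +
      finrank (ZMod p) k * ∑ r : T, finrank k (cent0 ρ (C.frob r)) + finrank (ZMod p) k ≤
    (∑ u : extArithIndex (placeSet p Smin T Q),
        finrank (ZMod p) (H0 ((adP p ρ).comp (locAt (placeSet p Smin T Q) u)))) +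
      finrank (ZMod p) k * Q.card := by
  classical
  set S := placeSet p Smin T Q with hSdef
  let L : Unit ⊕ ↥S → ℕ := fun u => finrank (ZMod p) (condFamily atP Smin T S u)
  let N : Unit ⊕ ↥S → ℕ := fun u => finrank (ZMod p) (H0 ((adP p ρ).comp (locAt S u)))
  let a : Unit ⊕ ↥S → ℕ := Sum.elim (fun _ => finrank (ZMod p) k) fun u => lowerTerm p ρ C (u.1 : ℕ)
  let b : Unit ⊕ ↥S → ℕ := Sum.elim (fun _ => 0) fun u => upperTermSmall p k Q (u.1 : ℕ)
  have hpt : ∀ u, L u + a u ≤ N u + b u := by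
    rintro (x | ⟨u, hu⟩)
    · have hbot : L (Sum.inl x) = 0 := finrank_bot (ZMod p)
        (H1 (localLevels (placeLoc (Sum.inl x))) ((adP p ρ).comp (placeLoc (Sum.inl x))))
      have := le_finrank_archimedean H x
      show L (Sum.inl x) + finrank (ZMod p) k ≤ N (Sum.inl x) + 0
      rw [hbot, zero_add, add_zero]
      exact this
    · exact condAt_bound_small H hC h3 hQ u (mem_placeSet.mp hu)
  have hsum := Finset.sum_le_sum fun u (_ : u ∈ Finset.univ) => hpt u
  rw [Finset.sum_add_distrib, Finset.sum_add_distrib] at hsum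
  have htot : ∀ f : ℕ → ℕ, ∑ u : ↥S, f (u.1 : ℕ) = ∑ n ∈ sigmaSet p Smin T Q, f n := fun f => by
    rw [Finset.sum_coe_sort S fun u : Nat.Primes => f (u : ℕ), hSdef]
    show Finset.sum (ι := Subtype Nat.Prime) ((sigmaSet p Smin T Q).subtype Nat.Prime)
      (fun u => f (u : ℕ)) = _
    erw [Finset.sum_subtype_eq_sum_filter]
    refine Finset.sum_congr (Finset.filter_true_of_mem fun n hn => ?_) fun _ _ => rfl
    simp only [sigmaSet, Finset.mem_union, Finset.mem_singleton] at hn
    rcases hn with ((h | h) | h) | h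
    · exact H.prime n (Finset.mem_union_left _ h)
    · exact H.prime n (Finset.mem_union_right _ h)
    · exact (hQ n h).1
    · exact h ▸ (Fact.out : p.Prime)
  have ha : ∑ u, a u =
      finrank (ZMod p) k + finrank (ZMod p) k * ∑ r : T, finrank k (cent0 ρ (C.frob r)) := by
    rw [Fintype.sum_sum_type]
    simp only [a, Sum.elim_inl, Sum.elim_inr, Finset.sum_const, Finset.card_univ, Fintype.card_unit,
      one_smul]
    rw [htot (lowerTerm p ρ C), ← Finset.sum_subset (f := lowerTerm p ρ C) (s₁ := T)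
      (fun n hn => by simp [sigmaSet, hn]) (fun n _ hn => dif_neg hn), ← Finset.sum_coe_sort T,
      Finset.mul_sum]
    congr 1
    exact Finset.sum_congr rfl fun r _ => dif_pos r.2
  have hb : ∑ u, b u = finrank (ZMod p) k * Q.card := by
    rw [Fintype.sum_sum_type]
    simp only [b, Sum.elim_inl, Sum.elim_inr, Finset.sum_const_zero, zero_add]
    rw [htot (upperTermSmall p k Q), ← Finset.sum_subset (f := upperTermSmall p k Q) (s₁ := Q)
      (fun n hn => by simp [sigmaSet, hn]) (fun n _ hn => if_neg hn),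
      Finset.sum_congr rfl
        (fun n hn => show upperTermSmall p k Q n = finrank (ZMod p) k from if_pos hn),
      Finset.sum_const, smul_eq_mul, Nat.mul_comm]
  rw [ha, hb] at hsum
  change (∑ u, L u) + _ + _ ≤ (∑ u, N u) + _
  omega

include H hC h3 hQ in
/-- The Greenberg–Wiles count with no excess at `p`. -/
theorem finrank_sel_small (hGW : GreenbergWilesLe p) {inv : InvFamily p} (hinv : inv.IsReciprocal) :
    FiniteDimensional (ZMod p)
      (Sel (placeSet p Smin T Q) (adP p ρ) (condFamily atP Smin T (placeSet p Smin T Q))) ∧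
    finrank (ZMod p)
        (Sel (placeSet p Smin T Q) (adP p ρ) (condFamily atP Smin T (placeSet p Smin T Q))) +
      finrank (ZMod p) k * ∑ r : T, finrank k (cent0 ρ (C.frob r)) + finrank (ZMod p) k ≤
    finrank (ZMod p) (dualSel H inv atP Q) + finrank (ZMod p) k * Q.card := by
  have := finiteDimensional_traceZero (k := k) (p := p)
  obtain ⟨h1, -, hle⟩ := hGW (traceZero k) (placeSet p Smin T Q) (pPrime_mem_placeSet Q) (adP p ρ)
    (isCtsRep_adP_placeSet H Q) (isCtsRep_dual H Q) inv hinv _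
    (finiteDimensional_condFamily (atP := atP) H hC hQ)
  refine ⟨h1, ?_⟩
  have h0 : finrank (ZMod p) (H0 (adP p ρ)) = 0 := by
    rw [invariants_adP_eq_bot H.abs (two_ne_zero_of_hyp (Fact.out : p.Prime) H), finrank_bot]
  have h4 := sum_condFamily_small (atP := atP) H hC h3 hQ
  generalize hD : finrank (ZMod p) (dualSel H inv atP Q) = D
  generalize hS : (∑ u, finrank (ZMod p) (condFamily atP Smin T (placeSet p Smin T Q) u)) = A at hle h4
  have h5 : finrank (ZMod p) (dualSel H inv atP Q) + finrank (ZMod p) (H0 (adP p ρ)) + A ≥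
      finrank (ZMod p) (Sel (placeSet p Smin T Q) (adP p ρ) (condFamily atP Smin T (placeSet p Smin T Q))) +
      ∑ u, finrank (ZMod p) (H0 ((adP p ρ).comp (locAt (placeSet p Smin T Q) u))) :=
    le_trans (by omega) hle
  rw [hD, h0] at h5
  omega

end Fermat.Agent.Engine.TW

namespace Fermat.Agent.Engine

open Fermat.Agent.DefRing Fermat.Agent.GalCoh TW Module

/-- **Taylor–Wiles primes killing the dual of a condition with no excess at `p`**: the framed
pairs are one fewer than in `exists_taylorWiles_system_of`. -/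
theorem exists_taylorWiles_system_small {k : Type} [Field k] [Finite k] (p : ℕ) [Fact p.Prime]
    (hp : 5 ≤ p) [CharP k p] (hinv : GalCoh.Reciprocity p) (hGW : GreenbergWilesLe p)
    (ρ : MRep k) (hfin : GaloisFactorsThroughFiniteLevel (ρ : GQ →* _))
    (habs : ∀ (K : Type) [Field K] [Algebra k K] (G : Subgroup GQ), G.index = 1 ∨ G.index = 2 →
      ∀ V : Submodule K (Fin 2 → K),
        (∀ σ ∈ G, ∀ x ∈ V, ((ρ σ).map (algebraMap k K)).mulVec x ∈ V) → V = ⊥ ∨ V = ⊤)
    (χ : GQ → k) (hχ : IsCyclotomicModP p χ) (hdet : ∀ σ, (ρ σ).det = χ σ)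
    (hvan : (∃ σ, ∃ c : k, ρ σ = c • 1 ∧ χ σ ≠ 1) ∨ ¬ p ∣ (Set.range ρ).ncard)
    (atP : CondAtP ρ p) (h3 : finrank k atP.cond ≤ 3)
    (Smin T : Finset ℕ) (hpS : p ∉ Smin ∧ p ∉ T) (hdisj : Disjoint Smin T)
    (hprime : ∀ q ∈ Smin ∪ T, q.Prime)
    (hmin : ∀ q ∈ Smin, ∀ A : ValuationSubring (AlgebraicClosure ℚ), A.LiesOverPrime q →
      ∀ σ ∈ A.inertiaSubgroupIn ℚ, (ρ σ - 1) * (ρ σ - 1) = 0)
    (hram : ∀ q ∈ Smin, ∃ A : ValuationSubring (AlgebraicClosure ℚ), A.LiesOverPrime q ∧
      ∃ σ ∈ A.inertiaSubgroupIn ℚ, ρ σ ≠ 1)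
    (hunr : ∀ q : ℕ, q.Prime → q ∉ Smin → q ≠ p →
      ∀ A : ValuationSubring (AlgebraicClosure ℚ), A.LiesOverPrime q →
        ∀ σ ∈ A.inertiaSubgroupIn ℚ, ρ σ = 1)
    (C : LocalChoices T) (hC : C.Valid p) :
    ∃ r : ℕ, T.card ≤ r ∧ ∀ n : ℕ, ∃ Q : Finset ℕ, Q.card = r ∧
      (∀ q ∈ Q, q.Prime ∧ q ∉ Smin ∪ T ∧ q ≠ p ∧ p ^ (n + 1) ∣ q - 1 ∧
        ∀ A : ValuationSubring (AlgebraicClosure ℚ), A.LiesOverPrime q →
          ∀ φ : GQ, A.IsFrobeniusAt φ q → (ρ φ).trace ^ 2 ≠ 4 * (ρ φ).det) ∧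
      ∀ W : Submodule k (TangentPair k T),
        (∀ x ∈ W, IsTangentPair ρ Smin (Smin ∪ T ∪ Q ∪ {p}) T C atP x) →
        FiniteDimensional k W ∧ Module.finrank k W + 1 ≤ r + T.card + 3 := by
  let : Algebra (ZMod p) k := ZMod.algebra k p
  have : FiniteDimensional (ZMod p) k := Module.Finite.of_finite
  have H : TWHyp p ρ χ Smin T :=
    ⟨hfin, habs, (by omega), hχ, hdet, hpS, hdisj, hprime, hmin, hram, hunr⟩
  obtain ⟨inv, hinj, hsum⟩ := hinv
  have hrec : InvFamily.IsReciprocal inv := ⟨hinj, hsum⟩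
  obtain ⟨-, hdfin, -⟩ := finrank_sel_le (atP := atP) (Q := ∅) H hC hGW hrec (by simp)
  refine ⟨max T.card (Nat.card (dualSel H inv atP ∅)), le_max_left _ _, fun n => ?_⟩
  obtain ⟨Q, hcard, hQ, hzero⟩ := exists_killing_set (atP := atP) H hrec
    (h1Vanishing_of_imageVanishing hχ hdet hfin hvan) n
    (max T.card (Nat.card (dualSel H inv atP ∅))) (le_max_right _ _)
  refine ⟨Q, hcard, fun q hq => ?_, fun W hW => ?_⟩
  · obtain ⟨h1, h2, h3', h4, h5⟩ := hQ q hq
    exact ⟨h1, h2, h3', h4, h5⟩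
  obtain ⟨hsfin, hle⟩ := finrank_sel_small (atP := atP) H hC h3 (fun q hq =>
    ⟨(hQ q hq).1, (hQ q hq).2.1, (hQ q hq).2.2.1, n, (hQ q hq).2.2.2⟩) hGW hrec
  obtain ⟨hWfin, hWle⟩ := finrank_tangentPairs_le H hC W hW
  refine ⟨hWfin, ?_⟩
  rw [hzero, finrank_bot, zero_add, hcard] at hle
  refine Nat.le_of_mul_le_mul_left ?_ (Module.finrank_pos (R := ZMod p) (M := k))
  rw [Nat.mul_add, Nat.mul_add] at hWle
  rw [Nat.mul_add, Nat.mul_add, Nat.mul_add, Nat.mul_one]
  omega

end Fermat.Agent.Engine
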