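import Fermat.Agent.Engine.AuxLevels
import Fermat.Agent.Engine.TWCrys.Coordinate
import Fermat.Agent.Engine.TWCrys.System

/-!
# Auxiliary levels with one pinned global variable and one further generator

For a closed condition at `p` and two functions `wOf`, `zOf` of representations whose vanishing to
first order lands in a condition with no excess at `p`, the levels at the primes killing the dual
of the latter are generated by the local coordinates, the global variables of which one is `wOf`,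
and `zOf`.
-/

set_option autoImplicit false

noncomputable section

open IsLocalRing GaloisRep Fermat.Agent.DefRing Fermat.Agent.Deform

namespace Fermat.Agent.Engine

local notation "Qbar" => AlgebraicClosure ℚ

variable {O : Type} [CommRing O] [IsLocalRing O]

/-- A function of lifts, natural and residually zero, lies in the maximal ideal. -/
theorem mem_maximalIdeal_of_natural {L : LevelData O} (P : L.RepRing)
    (wOf : ∀ {A : Type} [CommRing A] [Algebra O A], MRep A → A)
    (hw : ∀ {A B : Type} [CommRing A] [Algebra O A] [CommRing B] [Algebra O B] (f : A →ₐ[O] B)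
      (N : MRep A), f (wOf N) = wOf (mapRep (f : A →+* B) N))
    (hw0 : wOf L.D.rbar = 0) : wOf P.rep ∈ maximalIdeal P.R := by
  rw [← toResidue_eq_zero_iff P.instIsLocalHom P.residue_surjective, hw, P.isLift.reduces]
  exact hw0

/-- **Auxiliary levels with one pinned global variable and one further generator.** -/
theorem exists_auxLevels_crys [Finite (ResidueField O)] [IsNoetherianRing O]
    [IsAdicComplete (maximalIdeal O) O] (p : ℕ) [Fact p.Prime] (hp : 5 ≤ p)
    [CharP (ResidueField O) p] (hinv : GalCoh.Reciprocity p) (hGW : GalCoh.GreenbergWilesLe p)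
    (L₀ : LevelData O) (PB : L₀.RepRing) (h₀ : L₀.IsResidual)
    (habs : ∀ (K : Type) [Field K] [Algebra (ResidueField O) K] (G : Subgroup GQ),
      G.index = 1 ∨ G.index = 2 → ∀ V : Submodule K (Fin 2 → K),
        (∀ σ ∈ G, ∀ x ∈ V,
          ((L₀.D.rbar σ).map (algebraMap (ResidueField O) K)).mulVec x ∈ V) → V = ⊥ ∨ V = ⊤)
    (χ : GQ → ResidueField O) (hχ : IsCyclotomicModP p χ)
    (hdet : ∀ σ, (L₀.D.rbar σ).det = χ σ)
    (hvan : (∃ σ, ∃ c : ResidueField O, L₀.D.rbar σ = c • 1 ∧ χ σ ≠ 1) ∨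
      ¬ p ∣ (Set.range L₀.D.rbar).ncard)
    (small : CondAtP L₀.D.rbar p) (h3 : Module.finrank (ResidueField O) small.cond ≤ 3)
    (wOf zOf : ∀ {A : Type} [CommRing A] [Algebra O A], MRep A → A)
    (hw : ∀ {A B : Type} [CommRing A] [Algebra O A] [CommRing B] [Algebra O B] (f : A →ₐ[O] B)
      (N : MRep A), f (wOf N) = wOf (mapRep (f : A →+* B) N))
    (hz : ∀ {A B : Type} [CommRing A] [Algebra O A] [CommRing B] [Algebra O B] (f : A →ₐ[O] B)
      (N : MRep A), f (zOf N) = zOf (mapRep (f : A →+* B) N))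
    (hw0 : wOf L₀.D.rbar = 0) (hz0 : zOf L₀.D.rbar = 0)
    (hfirst : letI := dualAlgebra (𝒪 := O); ∀ N : MRep (DualNumber (ResidueField O)), IsCont N →
      (∀ σ, (N σ).map TrivSqZeroExt.fst = L₀.D.rbar σ) →
      (∀ σ, (cocOf L₀.D.rbar N σ).trace = 0) →
      L₀.atPlace.mem (L₀.atCoords N) → wOf N = 0 → zOf N = 0 →
      (fun σ : small.place.decompositionSubgroup ℚ => cocOf L₀.D.rbar N (σ : GQ)) ∈ small.cond)
    (T : Finset ℕ) (hpS : p ∉ L₀.Smin ∧ p ∉ T) (hdisj : Disjoint L₀.Smin T)
    (hprime : ∀ q ∈ L₀.Smin ∪ T, q.Prime) (hSigma : L₀.Sigma = L₀.Smin ∪ T ∪ {p})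
    (hram : ∀ q ∈ L₀.Smin, ∃ A : ValuationSubring Qbar, A.LiesOverPrime q ∧
      ∃ σ ∈ A.inertiaSubgroupIn ℚ, L₀.D.rbar σ ≠ 1)
    (hunr : ∀ q : ℕ, q.Prime → q ∉ L₀.Smin → q ≠ p →
      ∀ A : ValuationSubring Qbar, A.LiesOverPrime q →
        ∀ σ ∈ A.inertiaSubgroupIn ℚ, L₀.D.rbar σ = 1)
    (C : LocalChoices T) (hC : C.Valid p) (r₀ : T) (Φ₀ : T → Matrix (Fin 2) (Fin 2) O)
    (hΦ₀ : ∀ v, (Φ₀ v).map (residue O) = L₀.D.rbar (C.frob v)) :
    ∃ r, T.card ≤ r ∧ ∃ (Q : ℕ → Fin r → ℕ) (X : AuxLevels r r₀ C.frob C.tame Φ₀ L₀ PB),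
      X.nExtra = 1 ∧ AuxPrimes p X Q ∧ (∀ n i, X.extra n i = zOf (X.P n).rep) ∧
      ∃ l : Fin X.g, ∀ n, X.θ n (MvPowerSeries.X (Sum.inr (Sum.inr l))) =
        MvPowerSeries.C (wOf (X.P n).rep) := by
  classical
  obtain ⟨r, hr, hQ⟩ := exists_taylorWiles_system_small p hp hinv hGW L₀.D.rbar h₀.cont.finite_level
    habs χ hχ hdet hvan small h3 L₀.Smin T hpS hdisj hprime h₀.eqs.unipotent hram hunr C hC
  choose S hcard hS hbound using hQ
  have hT : 0 < T.card := Finset.card_pos.2 ⟨_, r₀.2⟩
  let Q : ℕ → Fin r → ℕ := fun n i => ((S n).equivFinOfCardEq (hcard n)).symm i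
  have hQmem : ∀ n i, Q n i ∈ S n := fun n i => (((S n).equivFinOfCardEq (hcard n)).symm i).2
  have himage : ∀ n, Finset.univ.image (Q n) = S n := fun n => Finset.ext fun q => by
    simp only [Finset.mem_image, Finset.mem_univ, true_and]
    exact ⟨fun ⟨i, hi⟩ => hi ▸ hQmem n i,
      fun hq => ⟨(S n).equivFinOfCardEq (hcard n) ⟨q, hq⟩, by simp [Q]⟩⟩
  have h2 : (2 : ResidueField O) ≠ 0 := fun h => by
    have h' : ((2 : ℕ) : ResidueField O) = 0 := by simpa using h
    have := Nat.le_of_dvd two_pos ((CharP.cast_eq_zero_iff _ p 2).mp h')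
    omega
  have htame : ∀ v, L₀.D.rbar (C.tame v) = 1 := fun v => by
    obtain ⟨A, hA, -, hin, -⟩ := hC v
    exact hunr _ (hprime _ (Finset.mem_union_right _ v.2))
      (fun h => Finset.disjoint_left.1 hdisj h v.2) (fun h => hpS.2 (h ▸ v.2)) A hA _ hin
  have hres : ∀ n, (L₀.withSigma (L₀.Sigma ∪ Finset.univ.image (Q n))).IsResidual := fun n =>
    h₀.withSigma Finset.subset_union_left
  let P := fun n => Classical.choice (LevelData.nonempty_repRing (hres n))
  have hfirst' : ∀ n, letI := dualAlgebra (𝒪 := O);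
      ∀ φ : (P n).R →ₐ[O] DualNumber (ResidueField O),
        φ (wOf (P n).rep) = 0 → φ (zOf (P n).rep) = 0 →
        (∀ σ, (mapRep (φ : (P n).R →+* DualNumber (ResidueField O)) (P n).rep σ).map
          TrivSqZeroExt.fst = L₀.D.rbar σ) →
        (∀ σ, (cocOf L₀.D.rbar
          (mapRep (φ : (P n).R →+* DualNumber (ResidueField O)) (P n).rep) σ).trace = 0) →
        (fun σ : small.place.decompositionSubgroup ℚ => cocOf L₀.D.rbar
          (mapRep (φ : (P n).R →+* DualNumber (ResidueField O)) (P n).rep) (σ : GQ)) ∈ small.cond := by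
    intro n
    let := dualAlgebra (𝒪 := O)
    intro φ hwφ hzφ hfst htr
    refine hfirst _ ((P n).isLift.cont.map (φ : (P n).R →+* DualNumber (ResidueField O))
      (isLocalHom_toDual φ)) hfst htr ?_ ((hw φ _).symm.trans hwφ) ((hz φ _).symm.trans hzφ)
    exact (P n).isLift.atPlace.mem_of_hom (P n).instIsLocalHom (P n).residue_surjective
      isArtinianTestAlgebra_dual φ (isLocalHom_toDual φ)
  choose θ hθl hgen hθlast hθ using fun n =>
    LevelData.RepRing.exists_surjective_locRing_coord (P n) h2 (hres n) small (wOf (P n).rep)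
      (zOf (P n).rep) (mem_maximalIdeal_of_natural (P n) wOf hw hw0)
      (mem_maximalIdeal_of_natural (P n) zOf hz hz0) (hfirst' n) T C r₀ (g := r + T.card - 2)
      (fun W hW => by
        obtain ⟨h1, h2'⟩ := hbound n W fun x hx => IsTangentPair.mono (by
          show L₀.Sigma ∪ Finset.univ.image (Q n) ⊆ _
          rw [himage, hSigma]
          intro q hq
          simp only [Finset.mem_union, Finset.mem_singleton] at hq ⊢
          tauto) (hW x hx)
        exact ⟨h1, by omega⟩) htame Φ₀ hΦ₀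
  choose toBase hl hsur hrep using fun n =>
    LevelData.RepRing.exists_map_of_subset Finset.subset_union_left (P n) PB
  have hmem : ∀ n i, Q n i ∉ L₀.Sigma := fun n i => by
    obtain ⟨-, h1, h2', -⟩ := hS n _ (hQmem n i)
    simp only [hSigma, Finset.mem_union, Finset.mem_singleton, not_or] at h1 ⊢
    exact ⟨h1, h2'⟩
  choose A hA using fun n i => Frobenius.exists_liesOverPrime Qbar (hS n _ (hQmem n i)).1
  choose tw htw using fun n i =>
    TameInertia.exists_tameGenerator (Fact.out : p.Prime) (hS n _ (hQmem n i)).1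
      (Ne.symm (hS n _ (hQmem n i)).2.2.1) (hA n i)
  have hbase : ∀ n i, (PB.rep (tw n i)).trace = 2 := fun n i => by
    rw [PB.isLift.eqs.unram _ (hS n _ (hQmem n i)).1 (hmem n i) _ (hA n i) _ (htw n i).1,
      Matrix.trace_one, Fintype.card_fin, Nat.cast_ofNat]
  refine ⟨r, hr, Q,
    { g := r + T.card - 2 + 1
      g_eq := by rw [Fintype.card_coe]; omega
      Sigma := fun n => L₀.Sigma ∪ Finset.univ.image (Q n)
      P := P
      θ := θ
      θ_isLocalHom := hθl
      nExtra := 1
      extra := fun n _ => zOf (P n).rep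
      extra_mem := fun n _ => mem_maximalIdeal_of_natural (P n) zOf hz hz0
      generates := hgen
      θ_spec := hθ
      toBase := toBase
      toBase_isLocalHom := hl
      toBase_surjective := hsur
      toBase_rep := hrep
      tw := tw
      tw_base := hbase }, rfl, ?_, fun _ _ => rfl, Fin.last _, hθlast⟩
  exact ⟨fun n i j h => ((S n).equivFinOfCardEq (hcard n)).symm.injective (Subtype.ext h),
    fun n i => (hS n _ (hQmem n i)).1, fun n i => (hS n _ (hQmem n i)).2.2.1, hmem,
    fun n i => (hS n _ (hQmem n i)).2.2.2.1, fun n i => (hS n _ (hQmem n i)).2.2.2.2,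
    fun _ => rfl, fun n i => ⟨A n i, hA n i, htw n i⟩⟩

end Fermat.Agent.Engine
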